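import Mathlib
import Fermat.Agent.RTLift.Old.Trivial
import Fermat.Agent.Ihara.HeckeLattice
import Fermat.Agent.Periods.HeckeFinite

/-!
Cohomology of `Γ₀(M)` with trivial character and the integral Hecke algebra of weight two: a
polynomial in Hecke operators killing the cohomology vanishes in `O ⊗ 𝕋`, and conversely an
element vanishing there kills parabolic classes.
-/

set_option autoImplicit false

noncomputable section

namespace FermatAgent.RTLift.Forms

open scoped TensorProduct MatrixGroups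
open CongruenceSubgroup FermatAgent.RTLift.Modules FermatAgent.RTLift.Old ModularCurve.Period
open FermatAgent.Ihara (PH heckeP heckeP_T heckeP_U heckeP_injective tOp uOp)

/-- Families of integers independent over `ℤ` stay independent in characteristic zero. -/
theorem eq_zero_of_sum_intCast {L : Type*} [Field L] [CharZero L] {ι κ : Type*} [Fintype ι]
    (M : ι → κ → ℤ) (hM : ∀ d : ι → ℤ, (∀ k, ∑ i, d i * M i k = 0) → d = 0) (c : ι → L)
    (hc : ∀ k, ∑ i, c i * (M i k : L) = 0) : c = 0 := by
  classical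
  let bas := Module.Basis.ofVectorSpace ℚ L
  funext i₀
  refine bas.repr.injective ?_
  rw [Pi.zero_apply, map_zero]
  ext j
  let q : ι → ℚ := fun i => bas.coord j (c i)
  have hq : ∀ k, ∑ i, q i * (M i k : ℚ) = 0 := fun k => by
    have h := congrArg (bas.coord j) (hc k)
    rw [map_sum, map_zero] at h
    rw [← h]
    refine Finset.sum_congr rfl fun i _ => ?_
    rw [show c i * (M i k : L) = ((M i k : ℚ)) • c i by rw [Rat.smul_def, mul_comm]; push_cast; ring,
      map_smul, smul_eq_mul, mul_comm]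
  obtain ⟨b, hb⟩ := IsLocalization.exist_integer_multiples_of_finite (nonZeroDivisors ℤ) q
  choose d hd using hb
  have hd' : ∀ i, (d i : ℚ) = (b : ℤ) * q i := fun i => by
    have := hd i
    simp only [eq_intCast, zsmul_eq_mul] at this
    exact this
  have hd0 : d = 0 := hM d fun k => by
    have : ((∑ i, d i * M i k : ℤ) : ℚ) = 0 := by
      push_cast
      rw [Finset.sum_congr rfl (fun i _ => by rw [hd' i, mul_assoc]), ← Finset.mul_sum, hq, mul_zero]
    exact_mod_cast this
  have hb0 : ((b : ℤ) : ℚ) ≠ 0 := by exact_mod_cast nonZeroDivisors.coe_ne_zero b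
  have := hd' i₀
  rw [hd0] at this
  simpa [q, hb0] using this.symm

/-- The same in a ring with an injective map to a field of characteristic zero. -/
theorem eq_zero_of_sum_intCast_of_injective {R L : Type*} [CommRing R] [Field L] [CharZero L]
    (f : R →+* L) (hf : Function.Injective f) {ι κ : Type*} [Fintype ι] (M : ι → κ → ℤ)
    (hM : ∀ d : ι → ℤ, (∀ k, ∑ i, d i * M i k = 0) → d = 0) (c : ι → R)
    (hc : ∀ k, ∑ i, c i * (M i k : R) = 0) : c = 0 := by
  have h := eq_zero_of_sum_intCast (L := L) M hM (fun i => f (c i)) fun k => by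
    have h1 := congrArg f (hc k)
    simpa [map_sum] using h1
  exact funext fun i => hf (by simpa using congrFun h i)

variable {M : ℕ} [NeZero M] {O : Type} [CommRing O]

/-- The Hecke operator at a prime, in the algebra of cusp forms. -/
def opElt (M : ℕ) [NeZero M] (l : Nat.Primes) : CuspForm.heckeAlgebra M 2 (∅ : Set ℕ) :=
  if h : (l : ℕ) ∣ M then CuspForm.heckeAlgebra.U l.2 h (Set.notMem_empty _)
  else CuspForm.heckeAlgebra.T l.2 h (Set.notMem_empty _)

omit [NeZero M] in
theorem isTrivialOn_one : IsTrivialOn (1 : (ZMod 1)ˣ →* O) O := fun _ a => one_smul O a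

variable (M O) in
/-- The class of a homomorphism. -/
def homCls : (Additive (Gamma0 M) →+ O) ≃ₗ[O] H1 (levelChar (one_dvd M) (1 : (ZMod 1)ˣ →* O)) O :=
  (levelEquiv (one_dvd M) isTrivialOn_one).symm

variable (M O) in
/-- The class of an integral parabolic homomorphism. -/
def castCls : PH M →ₗ[ℤ] H1 (levelChar (one_dvd M) (1 : (ZMod 1)ˣ →* O)) O :=
  (AddMonoidHom.mk' (fun x : PH M => homCls M O ((Int.castAddHom O).comp x.1)) fun x y => by
    rw [← map_add]
    exact congrArg _ (AddMonoidHom.ext fun γ => by simp)).toIntLinearMap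

theorem heckeOp_castCls (l : Nat.Primes) (x : PH M) :
    heckeOp (one_dvd M) (1 : (ZMod 1)ˣ →* O) O l (castCls M O x) =
      castCls M O (heckeP M (opElt M l) x) := by
  have : NeZero (l : ℕ) := ⟨l.2.ne_zero⟩
  have hA : IsTrivialOn (1 : (ZMod 1)ˣ →* O) O := isTrivialOn_one
  refine (levelEquiv (one_dvd M) hA).injective ?_
  have hz : ∀ z, levelEquiv (one_dvd M) hA (castCls M O z) =
      (Int.castAddHom O).comp z.1 := fun z => LinearEquiv.apply_symm_apply _ _
  rw [hz]
  have hx := hz x
  by_cases hl : (l : ℕ) ∣ M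
  · rw [heckeOp_of_dvd _ _ _ hl, levelEquiv_heckeU, hx, opElt, dif_pos hl, heckeP_U l.2 hl]
    exact Periods.heckeHomU_map (R := ℤ) M hl (Int.castAddHom O) x.1
  · rw [heckeOp_of_not_dvd _ _ _ hl, levelEquiv_heckeT, hx, opElt, dif_neg hl, heckeP_T l.2 hl]
    exact Periods.heckeHomT_map (R := ℤ) M l.2 hl (Int.castAddHom O) x.1

variable (M O) in
/-- The action of `O ⊗ 𝕋` on integral parabolic homomorphisms, with values in cohomology. -/
def tensorAct : O ⊗[ℤ] CuspForm.heckeAlgebra M 2 (∅ : Set ℕ) →ₗ[ℤ]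
    (PH M →ₗ[ℤ] H1 (levelChar (one_dvd M) (1 : (ZMod 1)ˣ →* O)) O) :=
  TensorProduct.lift (LinearMap.mk₂ ℤ (fun o t => o • (castCls M O).comp (heckeP M t))
    (fun o o' t => add_smul o o' _) (fun n o t => smul_assoc n o _)
    (fun o t t' => by rw [map_add, LinearMap.comp_add, smul_add])
    (fun n o t => by rw [map_zsmul, LinearMap.comp_smul, smul_comm]))

theorem tensorAct_tmul (o : O) (t : CuspForm.heckeAlgebra M 2 (∅ : Set ℕ)) (x : PH M) :
    tensorAct M O (o ⊗ₜ t) x = o • castCls M O (heckeP M t x) := rfl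

theorem tensorAct_mul_one_tmul (y : O ⊗[ℤ] CuspForm.heckeAlgebra M 2 (∅ : Set ℕ))
    (t : CuspForm.heckeAlgebra M 2 (∅ : Set ℕ)) (x : PH M) :
    tensorAct M O (y * ((1 : O) ⊗ₜ t)) x = tensorAct M O y (heckeP M t x) := by
  induction y using TensorProduct.induction_on with
  | zero => simp
  | tmul o u =>
    rw [Algebra.TensorProduct.tmul_mul_tmul, mul_one, tensorAct_tmul, tensorAct_tmul, map_mul,
      Module.End.mul_apply]
  | add y z hy hz => simp [add_mul, hy, hz]

theorem tensorAct_injective [IsDomain O] [CharZero O]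
    {y : O ⊗[ℤ] CuspForm.heckeAlgebra M 2 (∅ : Set ℕ)} (hy : tensorAct M O y = 0) : y = 0 := by
  classical
  have := Periods.moduleFinite_heckeAlgebra_all M 2 (∅ : Set ℕ)
  have : Module.IsTorsionFree ℤ (CuspForm.heckeAlgebra M 2 (∅ : Set ℕ)) :=
    Function.Injective.moduleIsTorsionFree (fun t => heckeP M t) heckeP_injective
      fun n t => map_zsmul _ n t
  have : Module.Free ℤ (CuspForm.heckeAlgebra M 2 (∅ : Set ℕ)) :=
    Module.free_of_finite_type_torsion_free'
  let bT := Module.Free.chooseBasis ℤ (CuspForm.heckeAlgebra M 2 (∅ : Set ℕ))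
  let bB := Algebra.TensorProduct.basis O bT
  set c := fun i => bB.repr y i
  have hsum : y = ∑ i, c i ⊗ₜ[ℤ] bT i := by
    conv_lhs => rw [← bB.sum_repr y]
    refine Finset.sum_congr rfl fun i _ => ?_
    rw [Algebra.TensorProduct.basis_apply, TensorProduct.smul_tmul', smul_eq_mul, mul_one]
  let L := FractionRing O
  have : CharZero L := charZero_of_injective_algebraMap (IsFractionRing.injective O L)
  have key := eq_zero_of_sum_intCast_of_injective (algebraMap O L) (IsFractionRing.injective O L)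
    (fun i (k : PH M × Additive (Gamma0 M)) => (heckeP M (bT i) k.1).1 k.2)
    (fun d hd => ?_) c fun k => ?_
  · rw [hsum]
    refine Finset.sum_eq_zero fun i _ => ?_
    have hi : c i = 0 := congrFun key i
    rw [hi, TensorProduct.zero_tmul]
  · have h0 : heckeP M (∑ i, d i • bT i) = 0 := by
      refine LinearMap.ext fun x => Subtype.ext (AddMonoidHom.ext fun γ => ?_)
      simpa [map_sum, LinearMap.sum_apply, Submodule.coe_sum, AddMonoidHom.finsetSum_apply]
        using hd (x, γ)
    funext i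
    exact Fintype.linearIndependent_iff.mp bT.linearIndependent d
      (heckeP_injective (h0.trans (map_zero _).symm)) i
  · have h := congrArg (fun f : PH M →ₗ[ℤ] _ =>
      (homCls M O).symm (f k.1) k.2) hy
    simp only [hsum, map_sum, LinearMap.sum_apply, tensorAct_tmul, map_smul,
      LinearMap.zero_apply, map_zero, AddMonoidHom.zero_apply, AddMonoidHom.finsetSum_apply,
      AddMonoidHom.smul_apply, smul_eq_mul] at h
    refine Eq.trans (Finset.sum_congr rfl fun i _ => ?_) h
    exact congrArg (c i * ·) (congrArg (fun φ : Additive (Gamma0 M) →+ O => φ k.2)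
      ((homCls M O).symm_apply_apply
        ((Int.castAddHom O).comp (heckeP M (bT i) k.1).1))).symm

variable {J : Type} (pr : J → Nat.Primes)

variable (M O) in
/-- A polynomial in Hecke symbols as an element of `O ⊗ 𝕋`. -/
def toTensor : MvPolynomial J O →ₐ[O] O ⊗[ℤ] CuspForm.heckeAlgebra M 2 (∅ : Set ℕ) :=
  MvPolynomial.aeval fun j => (1 : O) ⊗ₜ opElt M (pr j)

theorem heckeHom_castCls (s : MvPolynomial J O) (x : PH M) :
    heckeHom (one_dvd M) (1 : (ZMod 1)ˣ →* O) O pr s (castCls M O x) =
      tensorAct M O (toTensor M O pr s) x := by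
  induction s using MvPolynomial.induction_on generalizing x with
  | C r =>
    rw [← MvPolynomial.algebraMap_eq, AlgHom.commutes, AlgHom.commutes,
      Algebra.TensorProduct.algebraMap_apply, tensorAct_tmul, Module.algebraMap_end_apply, map_one,
      Module.End.one_apply]
    rfl
  | add a b ha hb => simp [ha, hb]
  | mul_X a j ha =>
    have hX : toTensor M O pr (MvPolynomial.X j) = (1 : O) ⊗ₜ opElt M (pr j) :=
      MvPolynomial.aeval_X _ _
    rw [map_mul, heckeHom_X, Module.End.mul_apply, heckeOp_castCls, ha]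
    refine (tensorAct_mul_one_tmul (toTensor M O pr a) (opElt M (pr j)) x).symm.trans ?_
    refine congrArg (fun y => tensorAct M O y x) ?_
    exact ((map_mul (toTensor M O pr) a _).trans (congrArg (toTensor M O pr a * ·) hX)).symm

/-- **A polynomial in Hecke operators killing cohomology vanishes in `O ⊗ 𝕋`.** -/
theorem toTensor_eq_zero [IsDomain O] [CharZero O] {s : MvPolynomial J O}
    (hs : heckeHom (one_dvd M) (1 : (ZMod 1)ˣ →* O) O pr s = 0) : toTensor M O pr s = 0 :=
  tensorAct_injective (LinearMap.ext fun x => by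
    rw [← heckeHom_castCls, hs, LinearMap.zero_apply, LinearMap.zero_apply])

/-- **Every eigensystem of the Hecke algebra of cusp forms satisfies the relations of the
operators on cohomology.** -/
theorem aeval_eq_zero_of_heckeHom_eq_zero [IsDomain O] [CharZero O] {B : Type*} [CommRing B]
    [Algebra O B] (lam : CuspForm.heckeAlgebra M 2 (∅ : Set ℕ) →+* B) {s : MvPolynomial J O}
    (hs : heckeHom (one_dvd M) (1 : (ZMod 1)ˣ →* O) O pr s = 0) :
    MvPolynomial.aeval (fun j => lam (opElt M (pr j))) s = 0 := by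
  let ψ : O ⊗[ℤ] CuspForm.heckeAlgebra M 2 (∅ : Set ℕ) →ₐ[O] B :=
    Algebra.TensorProduct.lift (Algebra.ofId O B) lam.toIntAlgHom fun _ _ => Commute.all _ _
  have h : ψ.comp (toTensor M O pr) = MvPolynomial.aeval fun j => lam (opElt M (pr j)) :=
    MvPolynomial.algHom_ext fun j => by simp [ψ, toTensor]
  rw [← h, AlgHom.comp_apply, toTensor_eq_zero pr hs, map_zero]

/-- An element vanishing in `O ⊗ 𝕋` kills parabolic classes. -/
theorem heckeHom_homCls_eq_zero [IsDomain O] [CharZero O] {s : MvPolynomial J O}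
    (hs : toTensor M O pr s = 0) {φ : Additive (Gamma0 M) →+ O}
    (hφ : φ ∈ parabolicHoms O (Gamma0 M) O) :
    heckeHom (one_dvd M) (1 : (ZMod 1)ˣ →* O) O pr s (homCls M O φ) = 0 := by
  classical
  let eZ := ModCurveGroup.parabolicHomsEquivPi M ℤ ℤ
  let eO := ModCurveGroup.parabolicHomsEquivPi M O O
  set e : Fin (2 * ModCurveGroup.genusX0 M) → PH M := fun i => eZ.symm (Pi.single i 1)
  have hmem : ∀ i, (Int.castAddHom O).comp (e i).1 ∈ parabolicHoms O (Gamma0 M) O :=
    fun i γ hγ => by simp [(e i).2 γ hγ]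
  have h1 : ∀ i, eO ⟨_, hmem i⟩ = Pi.single i 1 := fun i => by
    funext j
    obtain ⟨γ, hγ⟩ := ModCurveGroup.homProj_surjective (Gamma0 M) (ModCurveGroup.basisH1X0 M j)
    rw [ModCurveGroup.parabolicHomsEquivPi_apply M O O _ j hγ]
    change (((e i).1 γ : ℤ) : O) = _
    rw [← ModCurveGroup.parabolicHomsEquivPi_apply M ℤ ℤ _ j hγ]
    simp only [e, eZ, LinearEquiv.apply_symm_apply]
    rcases eq_or_ne j i with rfl | h
    · simp
    · simp [h]
  have hφ' : (⟨φ, hφ⟩ : parabolicHoms O (Gamma0 M) O) =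
      ∑ i, eO ⟨φ, hφ⟩ i • ⟨_, hmem i⟩ := by
    apply eO.injective
    simp only [map_sum, map_smul, h1]
    simp [← Pi.single_smul, Finset.univ_sum_single]
  have hφ'' : φ = ∑ i, eO ⟨φ, hφ⟩ i • (Int.castAddHom O).comp (e i).1 := by
    have := congrArg Subtype.val hφ'
    simpa [Submodule.coe_sum] using this
  rw [hφ'', map_sum, map_sum]
  refine Finset.sum_eq_zero fun i _ => ?_
  rw [map_smul, map_smul]
  change _ • heckeHom _ _ O pr s (castCls M O (e i)) = 0
  rw [heckeHom_castCls, hs, map_zero, LinearMap.zero_apply, smul_zero]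

variable (M O) in
theorem finite_h1 [IsNoetherianRing O] :
    Module.Finite O (H1 (levelChar (one_dvd M) (1 : (ZMod 1)ˣ →* O)) O) := by
  have : Group.FG SL(2, ℤ) := Group.fg_iff.mpr
    ⟨{ModularGroup.S, ModularGroup.T}, SpecialLinearGroup.SL2Z_generators, by simp⟩
  have : Group.FG (Gamma0 M) := inferInstance
  obtain ⟨G, hG⟩ := Group.fg_def.mp (inferInstance : Group.FG (Gamma0 M))
  let ev : (Additive (Gamma0 M) →+ O) →ₗ[O] (G → O) :=
    { toFun := fun φ g => φ (Additive.ofMul (g : Gamma0 M))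
      map_add' := fun _ _ => rfl
      map_smul' := fun _ _ => rfl }
  have hev : Function.Injective ev := by
    intro φ ψ h
    refine DFunLike.ext _ _ fun γ => ?_
    obtain ⟨γ, rfl⟩ := Additive.ofMul.surjective γ
    have hγ : γ ∈ Subgroup.closure (G : Set (Gamma0 M)) := hG ▸ Subgroup.mem_top γ
    induction hγ using Subgroup.closure_induction with
    | mem g hg => exact congrFun h ⟨g, hg⟩
    | one => rw [ofMul_one, map_zero, map_zero]
    | mul g g' _ _ hg hg' => rw [ofMul_mul, map_add, map_add, hg, hg']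
    | inv g _ hg => rw [ofMul_inv, map_neg, map_neg, hg]
  have : Module.Finite O (Additive (Gamma0 M) →+ O) := Module.Finite.of_injective ev hev
  exact Module.Finite.equiv (homCls M O)

variable [IsLocalRing O] [IsDomain O] [CharZero O] (ξ : J → IsLocalRing.ResidueField O)

/-- For a non-Eisenstein system the local part consists of parabolic classes. -/
theorem heckeHom_eq_zero_of_mem_localH1 (h2 : IsUnit (2 : O)) {j₀ : J} (hj : ¬ (pr j₀ : ℕ) ∣ M)
    (hj1 : (M : ℤ) ∣ ((pr j₀ : ℕ) : ℤ) - 1)
    (hne : ξ j₀ ≠ ((pr j₀ : ℕ) : IsLocalRing.ResidueField O) + 1) {s : MvPolynomial J O}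
    (hs : toTensor M O pr s = 0) {x : H1 (levelChar (one_dvd M) (1 : (ZMod 1)ˣ →* O)) O}
    (hx : x ∈ localH1 (one_dvd M) (1 : (ZMod 1)ˣ →* O) O pr ξ) :
    heckeHom (one_dvd M) (1 : (ZMod 1)ˣ →* O) O pr s x = 0 := by
  have hm : MvPolynomial.X j₀ - MvPolynomial.C (((pr j₀ : ℕ) + 1 : ℕ) : O) ∉ systemIdeal ξ := by
    rw [mem_systemIdeal, MvPolynomial.eval₂_sub, MvPolynomial.eval₂_X, MvPolynomial.eval₂_C,
      sub_eq_zero, map_natCast]
    push_cast
    exact hne
  obtain ⟨y, rfl⟩ := (mem_part_iff _ _).mp hx _ hm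
  obtain ⟨φ, rfl⟩ := (homCls M O).surjective y
  rw [map_sub, heckeHom_X, ← MvPolynomial.algebraMap_eq, AlgHom.commutes,
    heckeOp_of_not_dvd _ _ _ hj, LinearMap.sub_apply, Module.algebraMap_end_apply]
  have hT : heckeT (one_dvd M) (1 : (ZMod 1)ˣ →* O) O (pr j₀).2 hj (homCls M O φ) =
      homCls M O (Periods.heckeHomT O M (pr j₀).2 hj φ) :=
    (LinearEquiv.eq_symm_apply _).mpr ((levelEquiv_heckeT _ _ _ _ _).trans
      (congrArg _ (LinearEquiv.apply_symm_apply _ φ)))
  rw [hT, Nat.cast_smul_eq_nsmul, ← map_nsmul, ← map_sub]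
  exact heckeHom_homCls_eq_zero pr hs
    (Old.heckeHomT_sub_mem_parabolicHoms h2 (pr j₀).2 hj hj1 φ)

end FermatAgent.RTLift.Forms
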