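import Mathlib
import Fermat.Agent.RTLift.Forms.Integral
import Fermat.Agent.DSLift.Eigenform
import Fermat.Agent.ModCurve.Forms.IntegralForms

/-!
A point of the local part gives a normalised eigenform.
-/

set_option autoImplicit false

noncomputable section

namespace FermatAgent.RTLift.Forms

open scoped TensorProduct MatrixGroups
open IsLocalRing CongruenceSubgroup ModularFormClass FermatAgent.RTLift.Modules

/-- A homomorphism to an algebraically closed field extends along an integral injection. -/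
theorem exists_extension {R S Ω : Type*} [CommRing R] [CommRing S] [Field Ω] [IsAlgClosed Ω]
    (φ : R →+* S) (hφ : Function.Injective φ) (hint : φ.IsIntegral) (f : R →+* Ω) :
    ∃ g : S →+* Ω, ∀ r, g (φ r) = f r := by
  let _ : Algebra R S := φ.toAlgebra
  have : Algebra.IsIntegral R S := ⟨hint⟩
  have hP : (RingHom.ker f).IsPrime := RingHom.ker_isPrime f
  obtain ⟨Q, -, hQ, hQc⟩ := Ideal.exists_ideal_over_prime_of_isIntegral (RingHom.ker f) (⊥ : Ideal S)
    (by
      rw [← RingHom.ker_eq_comap_bot]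
      change RingHom.ker φ ≤ _
      rw [(RingHom.injective_iff_ker_eq_bot _).mp hφ]
      exact bot_le)
  let i : R ⧸ RingHom.ker f →+* S ⧸ Q := Ideal.quotientMap Q φ (le_of_eq hQc.symm)
  let f' : R ⧸ RingHom.ker f →+* Ω := RingHom.kerLift f
  have hi : Function.Injective i := Ideal.quotientMap_injective' (le_of_eq hQc)
  have hiint : i.IsIntegral := RingHom.IsIntegral.tower_top (Ideal.Quotient.mk (RingHom.ker f)) i
    (by rw [Ideal.quotientMap_comp_mk]
        exact RingHom.IsIntegral.trans φ (Ideal.Quotient.mk Q) hint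
          (RingHom.isIntegral_of_surjective _ Ideal.Quotient.mk_surjective))
  let _ : Algebra (R ⧸ RingHom.ker f) (S ⧸ Q) := i.toAlgebra
  let _ : Algebra (R ⧸ RingHom.ker f) Ω := f'.toAlgebra
  have : Algebra.IsIntegral (R ⧸ RingHom.ker f) (S ⧸ Q) := ⟨hiint⟩
  have : Module.IsTorsionFree (R ⧸ RingHom.ker f) (S ⧸ Q) := .of_smul_eq_zero fun r x h => by
    rw [Algebra.smul_def, mul_eq_zero] at h
    exact h.imp_left ((map_eq_zero_iff _ hi).mp)
  have : Module.IsTorsionFree (R ⧸ RingHom.ker f) Ω := .of_smul_eq_zero fun r x h => by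
    rw [Algebra.smul_def, mul_eq_zero] at h
    exact h.imp_left ((map_eq_zero_iff _ (RingHom.kerLift_injective f)).mp)
  have : Algebra.IsAlgebraic (R ⧸ RingHom.ker f) (S ⧸ Q) := inferInstance
  let g : S ⧸ Q →ₐ[R ⧸ RingHom.ker f] Ω := IsAlgClosed.lift
  refine ⟨g.toRingHom.comp (Ideal.Quotient.mk Q), fun r => ?_⟩
  exact g.commutes (Ideal.Quotient.mk _ r)

/-- A domain finite over `ℤ` of characteristic zero embeds in `ℂ`. -/
theorem exists_embedding_complex (Λ : Type*) [CommRing Λ] [IsDomain Λ] [CharZero Λ]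
    [Module.Finite ℤ Λ] : ∃ ι : Λ →+* ℂ, Function.Injective ι := by
  have : Algebra.IsAlgebraic ℤ Λ := inferInstance
  let φ : Λ →ₐ[ℤ] ℂ := IsAlgClosed.lift
  refine ⟨φ.toRingHom, (RingHom.injective_iff_ker_eq_bot _).mpr
    (Ideal.eq_bot_of_comap_eq_bot (R := ℤ) ?_)⟩
  rw [eq_bot_iff]
  intro n hn
  simp only [Ideal.mem_comap, RingHom.mem_ker, AlgHom.toRingHom_eq_coe,
    eq_intCast, map_intCast, Int.cast_eq_zero] at hn
  exact hn

variable {M : ℕ} [NeZero M] {O : Type} [CommRing O] [IsLocalRing O] [IsDomain O] [CharZero O]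
  {J : Type} (pr : J → Nat.Primes) (ξ : J → ResidueField O)

/-- A point of the local part extends to a point of the Hecke algebra with values in an
algebraically closed field. -/
theorem exists_hom_of_point (h2 : IsUnit (2 : O)) {j₀ : J} (hj : ¬ (pr j₀ : ℕ) ∣ M)
    (hj1 : (M : ℤ) ∣ ((pr j₀ : ℕ) : ℤ) - 1)
    (hne : ξ j₀ ≠ ((pr j₀ : ℕ) : ResidueField O) + 1) {O' : Type*} [CommRing O'] [IsDomain O']
    [CharZero O'] [Algebra O O'] (a : J → O')
    (ha : ∀ s : MvPolynomial J O,
      (∀ x ∈ localH1 (one_dvd M) (1 : (ZMod 1)ˣ →* O) O pr ξ,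
        heckeHom (one_dvd M) (1 : (ZMod 1)ˣ →* O) O pr s x = 0) →
      MvPolynomial.aeval a s = 0) :
    ∃ lam : CuspForm.heckeAlgebra M 2 (∅ : Set ℕ) →+* AlgebraicClosure (FractionRing O'),
      ∀ j, lam (opElt M (pr j)) = algebraMap O' (AlgebraicClosure (FractionRing O')) (a j) := by
  classical
  let F := toTensor M O pr
  let Ω := AlgebraicClosure (FractionRing O')
  let emb : O' →+* Ω := algebraMap O' Ω
  have hemb : Function.Injective emb := by
    simp only [emb, IsScalarTower.algebraMap_eq O' (FractionRing O') Ω, RingHom.coe_comp]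
    exact (algebraMap (FractionRing O') Ω).injective.comp (IsFractionRing.injective O' _)
  have : CharZero Ω := charZero_of_injective_ringHom hemb
  let f : MvPolynomial J O ⧸ RingHom.ker F.toRingHom →+* Ω :=
    Ideal.Quotient.lift _ (emb.comp (MvPolynomial.aeval a : MvPolynomial J O →ₐ[O] O').toRingHom)
      fun s hs => by
        change emb (MvPolynomial.aeval a s) = 0
        rw [ha s fun x hx => heckeHom_eq_zero_of_mem_localH1 pr ξ h2 hj hj1 hne hs hx, map_zero]
  have := Periods.moduleFinite_heckeAlgebra_all M 2 (∅ : Set ℕ)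
  let φ := RingHom.kerLift F.toRingHom
  have hint : φ.IsIntegral := RingHom.IsIntegral.tower_top
    ((Ideal.Quotient.mk (RingHom.ker F.toRingHom)).comp MvPolynomial.C) φ (by
      rw [← RingHom.comp_assoc, show φ.comp (Ideal.Quotient.mk _) = F.toRingHom from
        RingHom.ext fun s => rfl,
        show F.toRingHom.comp MvPolynomial.C =
          algebraMap O (O ⊗[ℤ] CuspForm.heckeAlgebra M 2 (∅ : Set ℕ)) from RingHom.ext F.commutes]
      exact fun x => Algebra.IsIntegral.isIntegral x)
  obtain ⟨G, hG⟩ := exists_extension φ (RingHom.kerLift_injective _) hint f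
  let lam : CuspForm.heckeAlgebra M 2 (∅ : Set ℕ) →+* Ω :=
    G.comp (Algebra.TensorProduct.includeRight
      (R := ℤ) (A := O) (B := CuspForm.heckeAlgebra M 2 (∅ : Set ℕ))).toRingHom
  have hlam : ∀ j, lam (opElt M (pr j)) = emb (a j) := fun j => by
    have h := hG (Ideal.Quotient.mk _ (MvPolynomial.X j))
    rw [RingHom.kerLift_mk, Ideal.Quotient.lift_mk] at h
    simp only [AlgHom.toRingHom_eq_coe, RingHom.coe_coe, RingHom.comp_apply,
      MvPolynomial.aeval_X, F, toTensor] at h
    exact h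
  exact ⟨lam, hlam⟩

/-- **A point of the local part gives an eigenform.** -/
theorem exists_eigenform_of_point (h2 : IsUnit (2 : O)) {j₀ : J} (hj : ¬ (pr j₀ : ℕ) ∣ M)
    (hj1 : (M : ℤ) ∣ ((pr j₀ : ℕ) : ℤ) - 1)
    (hne : ξ j₀ ≠ ((pr j₀ : ℕ) : ResidueField O) + 1) {O' : Type*} [CommRing O'] [IsDomain O']
    [CharZero O'] [Algebra O O'] (a : J → O')
    (ha : ∀ s : MvPolynomial J O,
      (∀ x ∈ localH1 (one_dvd M) (1 : (ZMod 1)ˣ →* O) O pr ξ,
        heckeHom (one_dvd M) (1 : (ZMod 1)ˣ →* O) O pr s x = 0) →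
      MvPolynomial.aeval a s = 0) :
    ∃ g : CuspForm (Gamma0 M) 2, g.IsNormalizedEigenform ∧
      ∃ ι : Algebra.adjoin ℤ (Set.range a) →+* ℂ, Function.Injective ι ∧
        ∀ j, qCoeff g (pr j) = ι ⟨a j, Algebra.subset_adjoin ⟨j, rfl⟩⟩ := by
  obtain ⟨lam, hlam⟩ := exists_hom_of_point pr ξ h2 hj hj1 hne a ha
  let emb : O' →+* AlgebraicClosure (FractionRing O') := algebraMap O' _
  have hemb : Function.Injective emb := by
    simp only [emb, IsScalarTower.algebraMap_eq O' (FractionRing O')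
      (AlgebraicClosure (FractionRing O')), RingHom.coe_comp]
    exact (algebraMap (FractionRing O') (AlgebraicClosure (FractionRing O'))).injective.comp
      (IsFractionRing.injective O' _)
  have : CharZero (AlgebraicClosure (FractionRing O')) := charZero_of_injective_ringHom hemb
  have := Periods.moduleFinite_heckeAlgebra_all M 2 (∅ : Set ℕ)
  have : Module.Finite ℤ lam.range :=
    Module.Finite.of_surjective lam.rangeRestrict.toIntAlgHom.toLinearMap
      lam.rangeRestrict_surjective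
  obtain ⟨ι, hι⟩ := exists_embedding_complex lam.range
  obtain ⟨g, hg, hgT, hgU, -⟩ := DSLift.exists_normalizedEigenform_of_ringHom
    (ModCurve.Forms.hasIntegralStructure_two M) (ι.comp lam.rangeRestrict)
  have hmem : ∀ x : Algebra.adjoin ℤ (Set.range a), emb x ∈ lam.range := fun x => by
    obtain ⟨x, hx⟩ := x
    induction hx using Algebra.adjoin_induction with
    | mem y hy =>
      obtain ⟨j, rfl⟩ := hy
      exact ⟨_, hlam j⟩
    | algebraMap n =>
      change emb ((algebraMap ℤ O') n) ∈ _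
      rw [eq_intCast, map_intCast]
      exact intCast_mem lam.range n
    | add y z _ _ hy hz =>
      change emb (y + z) ∈ _
      rw [map_add]; exact add_mem hy hz
    | mul y z _ _ hy hz =>
      change emb (y * z) ∈ _
      rw [map_mul]; exact mul_mem hy hz
  refine ⟨g, hg, ι.comp ((emb.comp (Algebra.adjoin ℤ (Set.range a)).val.toRingHom).codRestrict _
    hmem), hι.comp fun x y hxy => Subtype.ext (hemb (congrArg Subtype.val hxy)), fun j => ?_⟩
  have hgl : qCoeff g (pr j) = ι (lam.rangeRestrict (opElt M (pr j))) := by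
    by_cases hd : (pr j : ℕ) ∣ M
    · rw [opElt, dif_pos hd, hgU _ (pr j).2 hd]; rfl
    · rw [opElt, dif_neg hd, hgT _ (pr j).2 hd]; rfl
  rw [hgl, RingHom.comp_apply]
  refine congrArg ι (Subtype.ext ?_)
  change lam (opElt M (pr j)) = emb (a j)
  exact hlam j

/-- **An integral point of the local part gives an eigenform with these coefficients.** -/
theorem exists_eigenform_of_int_point (h2 : IsUnit (2 : O)) {j₀ : J} (hj : ¬ (pr j₀ : ℕ) ∣ M)
    (hj1 : (M : ℤ) ∣ ((pr j₀ : ℕ) : ℤ) - 1)
    (hne : ξ j₀ ≠ ((pr j₀ : ℕ) : ResidueField O) + 1) (a : J → ℤ)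
    (ha : ∀ s : MvPolynomial J O,
      (∀ x ∈ localH1 (one_dvd M) (1 : (ZMod 1)ˣ →* O) O pr ξ,
        heckeHom (one_dvd M) (1 : (ZMod 1)ˣ →* O) O pr s x = 0) →
      MvPolynomial.eval (fun j => (a j : O)) s = 0) :
    ∃ g : CuspForm (Gamma0 M) 2, g.IsNormalizedEigenform ∧ ∀ j, qCoeff g (pr j) = (a j : ℂ) := by
  obtain ⟨g, hg, ι, -, hgj⟩ := exists_eigenform_of_point pr ξ h2 hj hj1 hne
    (fun j => (a j : O)) fun s hs => by rw [MvPolynomial.aeval_eq_eval]; exact ha s hs
  refine ⟨g, hg, fun j => ?_⟩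
  rw [hgj j]
  refine (congrArg ι (Subtype.ext ?_)).trans (map_intCast ι (a j))
  simp

end FermatAgent.RTLift.Forms
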