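import Mathlib
import Fermat.Agent.RTLift.Forms.Integral
import Fermat.Agent.DSLift.Eigenform
import Fermat.Prelude.Def_FLTPrelim_ModularRep

/-!
A residual eigensystem of a cusp form occurs in the local part of the cohomology.
-/

set_option autoImplicit false

noncomputable section

namespace FermatAgent.RTLift.Forms

open IsLocalRing CongruenceSubgroup ModularFormClass FermatAgent.RTLift.Modules
open scoped MatrixGroups

local notation "Zbar" => integralClosure ℤ ℂ

/-- A residue field of the algebraic integers is algebraically closed. -/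
theorem isAlgClosed_quotient (m : Ideal Zbar) [m.IsMaximal] :
    letI := Ideal.Quotient.field m
    IsAlgClosed (Zbar ⧸ m) := by
  let _ := Ideal.Quotient.field m
  refine IsAlgClosed.of_exists_root _ fun P hP hirr => ?_
  obtain ⟨Q, hQ, hdeg, hQm⟩ := Polynomial.lifts_and_degree_eq_and_monic
    ((Polynomial.mem_lifts P).mpr (Polynomial.map_surjective _ Ideal.Quotient.mk_surjective P)) hP
  obtain ⟨z, hz⟩ := IsAlgClosed.exists_root (Q.map (algebraMap Zbar ℂ)) (by
    rw [hQm.degree_map, hdeg]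
    exact hirr.degree_pos.ne')
  rw [Polynomial.IsRoot.def, Polynomial.eval_map] at hz
  have hzint : IsIntegral ℤ z := isIntegral_trans z ⟨Q, hQm, hz⟩
  refine ⟨Ideal.Quotient.mk m ⟨z, hzint⟩, ?_⟩
  have h0 : Q.eval (⟨z, hzint⟩ : Zbar) = 0 := Subtype.coe_injective (by
    change ((algebraMap Zbar ℂ) (Q.eval (⟨z, hzint⟩ : Zbar)) : ℂ) = 0
    rw [← Polynomial.eval₂_at_apply]
    exact hz)
  rw [← hQ, Polynomial.eval_map, Polynomial.eval₂_at_apply, h0, map_zero]

/-- A finite field of characteristic `p` embeds in a residue field of the algebraic integers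
at `p`. -/
theorem exists_embedding_quotient {k : Type*} [Field k] [Finite k] (p : ℕ) [Fact p.Prime]
    [CharP k p] (m : Ideal Zbar) [m.IsMaximal] (hp : (p : Zbar) ∈ m) :
    Nonempty (k →+* Zbar ⧸ m) := by
  let _ := Ideal.Quotient.field m
  have := isAlgClosed_quotient m
  have : CharP (Zbar ⧸ m) p := (CharP.charP_iff_prime_eq_zero Fact.out).mpr
    (by rw [← map_natCast (Ideal.Quotient.mk m), Ideal.Quotient.eq_zero_iff_mem]; exact hp)
  let _ := ZMod.algebra k p
  let _ := ZMod.algebra (Zbar ⧸ m) p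
  have : Module.IsTorsionFree (ZMod p) (Zbar ⧸ m) := .of_smul_eq_zero fun r x h => by
    rw [Algebra.smul_def, mul_eq_zero] at h
    exact h.imp_left ((map_eq_zero_iff _ (algebraMap (ZMod p) (Zbar ⧸ m)).injective).mp)
  have : Module.Finite (ZMod p) k := Module.Finite.of_finite
  exact ⟨(IsAlgClosed.lift : k →ₐ[ZMod p] Zbar ⧸ m).toRingHom⟩

variable {M : ℕ} [NeZero M] {O : Type} [CommRing O] [IsLocalRing O]
  {J : Type} (pr : J → Nat.Primes) (ξ : J → ResidueField O)

omit [NeZero M] in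
/-- Evaluation in an algebra killing the maximal ideal. -/
theorem aeval_eq_apply_eval₂ {B : Type*} [CommRing B] [Algebra O B] (b : J → B)
    (e : ResidueField O →+* B) (he : ∀ r, e (residue O r) = algebraMap O B r)
    (hξ : ∀ j, e (ξ j) = b j) (s : MvPolynomial J O) :
    MvPolynomial.aeval b s = e (MvPolynomial.eval₂ (residue O) ξ s) := by
  rw [MvPolynomial.eval₂_comp_left e, MvPolynomial.aeval_def]
  congr 1
  · exact RingHom.ext fun r => (he r).symm
  · exact funext fun j => (hξ j).symm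

variable [IsDomain O] [CharZero O] [IsNoetherianRing O] [IsAdicComplete (maximalIdeal O) O]

omit [IsNoetherianRing O] [IsAdicComplete (maximalIdeal O) O] in
theorem heckeHom_ne_zero_of_not_mem {B : Type*} [CommRing B] [Algebra O B]
    (lam : CuspForm.heckeAlgebra M 2 (∅ : Set ℕ) →+* B) (e : ResidueField O →+* B)
    [Nontrivial B] (he : ∀ r, e (residue O r) = algebraMap O B r)
    (hξ : ∀ j, e (ξ j) = lam (opElt M (pr j))) {s : MvPolynomial J O} (hs : s ∉ systemIdeal ξ) :
    heckeHom (one_dvd M) (1 : (ZMod 1)ˣ →* O) O pr s ≠ 0 := fun h0 => by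
  have h := aeval_eq_zero_of_heckeHom_eq_zero pr lam h0
  rw [aeval_eq_apply_eval₂ ξ _ e he hξ, map_eq_zero_iff _ e.injective] at h
  exact hs h

/-- **A residual system of the Hecke algebra occurs in the local part.** -/
theorem localH1_ne_bot {B : Type*} [CommRing B] [Algebra O B] [Nontrivial B]
    (lam : CuspForm.heckeAlgebra M 2 (∅ : Set ℕ) →+* B) (e : ResidueField O →+* B)
    (he : ∀ r, e (residue O r) = algebraMap O B r)
    (hξ : ∀ j, e (ξ j) = lam (opElt M (pr j))) :
    localH1 (one_dvd M) (1 : (ZMod 1)ˣ →* O) O pr ξ ≠ ⊥ := by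
  have := finite_h1 M O
  obtain ⟨s₀, hs₀⟩ := exists_isProjector
    (heckeHom (R := O) (one_dvd M) (1 : (ZMod 1)ˣ →* O) O pr) (systemIdeal ξ)
  intro hbot
  refine heckeHom_ne_zero_of_not_mem pr ξ lam e he hξ hs₀.not_mem ?_
  rw [← LinearMap.range_eq_bot, hs₀.range_eq]
  exact hbot

/-- The residual system of an eigenform occurs in the local part. -/
theorem localH1_ne_bot_of_form {f : CuspForm (Gamma0 M) 2} (hf : f.IsNormalizedEigenform)
    (m : Ideal Zbar) [m.IsMaximal] (e : ResidueField O →+* Zbar ⧸ m)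
    (hξ : ∀ j, ∃ b : Zbar, (b : ℂ) = qCoeff f (pr j) ∧ e (ξ j) = Ideal.Quotient.mk m b) :
    localH1 (one_dvd M) (1 : (ZMod 1)ˣ →* O) O pr ξ ≠ ⊥ := by
  obtain ⟨χ, -, hT, hU⟩ := DSLift.exists_ringHom_of_isNormalizedEigenform hf (∅ : Set ℕ)
  have := Periods.moduleFinite_heckeAlgebra_all M 2 (∅ : Set ℕ)
  have hint : ∀ t, χ t ∈ (integralClosure ℤ ℂ).toSubring := fun t =>
    (Algebra.IsIntegral.isIntegral (R := ℤ) t).map χ.toIntAlgHom
  let χO : CuspForm.heckeAlgebra M 2 (∅ : Set ℕ) →+* Zbar :=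
    χ.codRestrict (integralClosure ℤ ℂ).toSubring hint
  let _ : Algebra O (Zbar ⧸ m) := (e.comp (residue O)).toAlgebra
  refine localH1_ne_bot pr ξ ((Ideal.Quotient.mk m).comp χO) e (fun r => rfl) fun j => ?_
  obtain ⟨b, hb, hbe⟩ := hξ j
  rw [hbe, RingHom.comp_apply]
  congr 1
  refine Subtype.ext (hb.trans ?_)
  change _ = χ (opElt M (pr j))
  by_cases hj : (pr j : ℕ) ∣ M
  · rw [opElt, dif_pos hj, hU]
  · rw [opElt, dif_neg hj, hT]

/-- The residual system of a curve in `IsResiduallyModularOfLevel` occurs in the local part. -/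
theorem localH1_ne_bot_of_isResiduallyModularOfLevel [Finite (ResidueField O)]
    {W : WeierstrassCurve ℤ} {p : ℕ} [Fact p.Prime] (hp : (p : O) ∈ maximalIdeal O)
    (hW : W.IsResiduallyModularOfLevel p M)
    (hpr : ∀ j, W.IsGoodPrimeFor (pr j) ∧ ¬ (pr j : ℕ) ∣ M ∧ (pr j : ℕ) ≠ p) :
    localH1 (one_dvd M) (1 : (ZMod 1)ˣ →* O) O pr
      (fun j => (W.apOfModel (pr j) : ResidueField O)) ≠ ⊥ := by
  obtain ⟨f, m, hf, hm, hpm, hcong⟩ := hW
  have : CharP (ResidueField O) p := (CharP.charP_iff_prime_eq_zero Fact.out).mpr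
    (by rw [← map_natCast (residue O), residue_eq_zero_iff]; exact hp)
  obtain ⟨e⟩ := exists_embedding_quotient (k := ResidueField O) p m hpm
  refine localH1_ne_bot_of_form pr _ hf m e fun j => ?_
  obtain ⟨b, hb, hbm⟩ := hcong (pr j) (pr j).2 (hpr j).1 (hpr j).2.1 (hpr j).2.2
  refine ⟨b, hb, ?_⟩
  rw [map_intCast, ← map_intCast (Ideal.Quotient.mk m), eq_comm, Ideal.Quotient.eq]
  exact hbm

end FermatAgent.RTLift.Forms
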